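/-
S16 / (U)-A "Lemma T" (helper99).  Part (T3): the trace identity.

For `G ∈ M₂(Γ₀(p))` and a level-one form `Φ` of weight `k`, the `q`-expansion of the trace of
`G · Φ(p z)` to level one (on top of helper81's `Conj81` and helper40's `EllP40.raise`).
For `Φ = Δ` the trace lies in `S₁₄(SL₂ℤ) = 0`, which gives `TraceDeltaAt p (qExpansion 1 G)`.
-/
import Mathlib
import Fermat.Agent.S16.Conj81.QExp
import Fermat.Agent.S16.EllP40.LevelRaise
import Fermat.Agent.S16.LemmaT99.Main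
import Fermat.Agent.S16.LemmaT72Core

set_option autoImplicit false
set_option linter.unusedSectionVars false
set_option linter.unusedVariables false

namespace Fermat.Agent.S16.LemmaT99

open UpperHalfPlane ModularForm CongruenceSubgroup PowerSeries ModularGroup
open scoped MatrixGroups ModularForm
open Fermat.Agent.S16.Conj81 (Hs Hs_def Hs_periodic Hs_mdiff Hs_bdd bco p_pos_real)
open Fermat.Agent.S16.EllP40 (raise raise_apply raise_qExpansion_coeff)
open Fermat.Agent.S16.LemmaT72 (tau tau_one tau_zero)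

local notation "Δ" => ModularForm.discriminant

variable {p : ℕ} [hp : Fact p.Prime] {k : ℤ}

/-! ### (a) `f ∣ S` is multiplicative -/

theorem Hs_mul {k1 k2 : ℤ} (f : ModularForm (Gamma0 p) k1) (g : ModularForm (Gamma0 p) k2) :
    Hs (f.mul g) = Hs f * Hs g := by
  rw [Hs_def, Hs_def, Hs_def, ModularForm.coe_mul, ModularForm.mul_slash_SL2]

/-! ### (b) `Φ(p z) ∣ S = p^{-k} Φ(z / p)` -/

theorem levelOne_S_smul (Φ : ModularForm 𝒮ℒ k) (w : ℍ) :
    Φ (S • w) = (w : ℂ) ^ k * Φ w := by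
  have h1 : (Φ : ℍ → ℂ) ∣[k] S = Φ := by
    rw [ModularForm.SL_slash]
    exact SlashInvariantFormClass.slash_action_eq Φ _ ⟨S, rfl⟩
  have h2 := congrFun h1 w
  rw [ModularForm.SL_slash_apply, ModularGroup.denom_S] at h2
  have hw : (w : ℂ) ≠ 0 := UpperHalfPlane.ne_zero w
  rw [← h2, mul_comm, mul_assoc, ← zpow_add₀ hw, neg_add_cancel, zpow_zero, mul_one]

theorem heckeDiag_smul_S_smul (z : ℍ) :
    heckeDiagMatrix p • (S • z) = S • (heckeMatrix p 0 • z) := by
  have hp0 : (p : ℂ) ≠ 0 := Nat.cast_ne_zero.mpr hp.out.ne_zero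
  have hz : (z : ℂ) ≠ 0 := UpperHalfPlane.ne_zero z
  ext
  rw [coe_heckeDiagMatrix_smul hp.out.ne_zero, modular_S_smul, modular_S_smul]
  show (p : ℂ) * (-(z : ℂ))⁻¹ = (-((heckeMatrix p 0 • z : ℍ) : ℂ))⁻¹
  rw [coe_heckeMatrix_smul hp.out.ne_zero]
  simp only [Nat.cast_zero, add_zero]
  field_simp

theorem Hs_raise (Φ : ModularForm 𝒮ℒ k) (z : ℍ) :
    Hs (raise p Φ) z = (p : ℂ) ^ (-k) * Φ (heckeMatrix p 0 • z) := by
  have hp0 : (p : ℂ) ≠ 0 := Nat.cast_ne_zero.mpr hp.out.ne_zero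
  have hz : (z : ℂ) ≠ 0 := UpperHalfPlane.ne_zero z
  rw [Hs_def, ModularForm.SL_slash_apply, raise_apply, ModularGroup.denom_S,
    heckeDiag_smul_S_smul, levelOne_S_smul, coe_heckeMatrix_smul hp.out.ne_zero]
  push_cast
  rw [add_zero, div_zpow, zpow_neg, zpow_neg]
  field_simp

theorem qParam_heckeMatrix_zero (z : ℍ) :
    Function.Periodic.qParam 1 ((heckeMatrix p 0 • z : ℍ) : ℂ) =
      Function.Periodic.qParam (p : ℝ) z := by
  rw [coe_heckeMatrix_smul hp.out.ne_zero]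
  unfold Function.Periodic.qParam
  congr 1
  push_cast
  ring

theorem hasSum_Hs_raise (Φ : ModularForm 𝒮ℒ k) (z : ℍ) :
    HasSum (fun m : ℕ => ((p : ℂ) ^ (-k) * (qExpansion 1 Φ).coeff m) •
      Function.Periodic.qParam (p : ℝ) z ^ m) (Hs (raise p Φ) z) := by
  have h1 := ModularForm.hasSum_qExpansion (h := 1) Φ one_pos
    (by rw [Subgroup.strictPeriods_SL2Z]; exact AddSubgroup.mem_zmultiples 1)
    (heckeMatrix p 0 • z)
  rw [qParam_heckeMatrix_zero] at h1
  rw [Hs_raise]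
  have h2 := h1.mul_left ((p : ℂ) ^ (-k))
  have h3 : (fun m : ℕ => ((p : ℂ) ^ (-k) * (qExpansion 1 Φ).coeff m) •
      Function.Periodic.qParam (p : ℝ) z ^ m) = fun m : ℕ => (p : ℂ) ^ (-k) *
      ((qExpansion 1 Φ).coeff m * Function.Periodic.qParam (p : ℝ) z ^ m) := by
    funext m
    rw [smul_eq_mul, mul_assoc]
  rw [h3]
  exact h2

theorem analyticAt_Hs (f : ModularForm (Gamma0 p) k) :
    AnalyticAt ℂ (cuspFunction (p : ℝ) (Hs f)) 0 :=
  UpperHalfPlane.analyticAt_cuspFunction_zero p_pos_real (Hs_periodic f) (Hs_mdiff f) (Hs_bdd f)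

omit hp in
/-- Function-level uniqueness of `q`-expansion coefficients (Mathlib's version needs `FunLike`). -/
theorem qExpansion_coeff_unique_fun {f : ℍ → ℂ} {c : ℕ → ℂ} {h : ℝ} (hh : 0 < h)
    (hfanalytic : AnalyticAt ℂ (cuspFunction h f) 0)
    (hf : ∀ τ : ℍ, HasSum (fun m ↦ c m • Function.Periodic.qParam h τ ^ m) (f τ)) (m : ℕ) :
    c m = (qExpansion h f).coeff m := by
  have h1 := (hasFPowerSeriesOnBall_cuspFunction hh hfanalytic hf).hasFPowerSeriesAt
  have h2 : HasFPowerSeriesAt (cuspFunction h f)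
      (FormalMultilinearSeries.ofScalars ℂ fun m ↦ (qExpansion h f).coeff m) 0 := by
    simpa [qExpansion_coeff, div_eq_mul_inv, mul_comm]
      using hfanalytic.hasFPowerSeriesAt
  simpa [FormalMultilinearSeries.coeff_ofScalars] using
    congr_arg (FormalMultilinearSeries.coeff · m) (h1.eq_formalMultilinearSeries h2)

theorem qExpansion_Hs_raise (Φ : ModularForm 𝒮ℒ k) :
    qExpansion (p : ℝ) (Hs (raise p Φ)) = (p : ℂ) ^ (-k) • qExpansion 1 Φ := by
  ext m
  have h := qExpansion_coeff_unique_fun (p_pos_real (p := p))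
    (analyticAt_Hs (raise p Φ))
    (c := fun m => (p : ℂ) ^ (-k) * (qExpansion 1 Φ).coeff m) (hasSum_Hs_raise Φ) m
  rw [← h, coeff_smul, smul_eq_mul]

/-! ### (c) the trace of `G · Φ(p z)`: general coefficient formula (no Fricke relation needed) -/

theorem qExpansion_raise (Φ : ModularForm 𝒮ℒ k) :
    qExpansion 1 (raise p Φ) = psV p (qExpansion 1 Φ) := by
  ext n
  rw [raise_qExpansion_coeff, coeff_psV]

theorem one_mem_strictPeriods_Gamma0' :
    (1 : ℝ) ∈ (Gamma0 p : Subgroup (GL (Fin 2) ℝ)).strictPeriods := by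
  rw [strictPeriods_Gamma0]; exact AddSubgroup.mem_zmultiples 1

theorem qExpansion_mul_raise {k2 : ℤ} (G : ModularForm (Gamma0 p) k2) (Φ : ModularForm 𝒮ℒ k) :
    qExpansion 1 (G.mul (raise p Φ)) = qExpansion 1 G * psV p (qExpansion 1 Φ) := by
  rw [ModularForm.coe_mul,
    ModularForm.qExpansion_mul_coe one_pos one_mem_strictPeriods_Gamma0' G (raise p Φ),
    qExpansion_raise]

theorem qExpansion_Hs_mul_raise {k2 : ℤ} (G : ModularForm (Gamma0 p) k2) (Φ : ModularForm 𝒮ℒ k) :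
    qExpansion (p : ℝ) (Hs (G.mul (raise p Φ))) =
      (p : ℂ) ^ (-k) • (qExpansion (p : ℝ) (Hs G) * qExpansion 1 Φ) := by
  rw [Hs_mul, UpperHalfPlane.qExpansion_mul (analyticAt_Hs G) (analyticAt_Hs (raise p Φ)),
    qExpansion_Hs_raise, mul_smul_comm]

/-- **General trace coefficient formula** (any `G` of level `p`, any level-one `Φ`):
`a_n(Tr(G · Φ(p·))) = [qⁿ](g · V_p φ) + p^{1-k} [q_p^{pn}]((G∣S) · φ)`. -/
theorem trace_mul_raise_coeff {k2 : ℤ} (G : ModularForm (Gamma0 p) k2) (Φ : ModularForm 𝒮ℒ k)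
    (n : ℕ) :
    (qExpansion 1 (ModularForm.trace 𝒮ℒ (G.mul (raise p Φ)))).coeff n =
      coeff n (qExpansion 1 G * psV p (qExpansion 1 Φ)) +
        (p : ℂ) * ((p : ℂ) ^ (-k) *
          coeff (p * n) (qExpansion (p : ℝ) (Hs G) * qExpansion 1 Φ)) := by
  rw [Fermat.Agent.S16.Conj81.qExpansion_trace_coeff, qExpansion_mul_raise]
  congr 2
  unfold bco
  rw [qExpansion_Hs_mul_raise, coeff_smul, smul_eq_mul]

/-! ### (d) with the Fricke relation `G ∣ S = -(1/p) Σ a_{pn}(G) q_p^n` in coefficient form -/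

/-- The weight-2 Fricke relation `G∣W = -U_p G` in coefficient form:
the `q^{1/p}`-expansion of `G ∣ S` is `-(1/p) Σ a_{pn}(G) q_p^n`. -/
def FrickeCoeff (G : ModularForm (Gamma0 p) 2) : Prop :=
  ∀ n, bco G n = -(1 / (p : ℂ)) * (qExpansion 1 G).coeff (p * n)

theorem qExpansion_Hs_of_fricke (G : ModularForm (Gamma0 p) 2) (hF : FrickeCoeff G) :
    qExpansion (p : ℝ) (Hs G) = (-(1 / (p : ℂ))) • psU p (qExpansion 1 G) := by
  ext n
  rw [coeff_smul, smul_eq_mul, coeff_psU]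
  exact hF n

/-- **Trace formula** (helper97's shape): for `G ∈ M₂(Γ₀(p))` satisfying the Fricke relation and
any level-one `Φ` of weight `k`,
`Tr(G · V_p Φ) = g · V_p φ - p^{-k} U_p((U_p g) · φ)` as `q`-series. -/
theorem qExpansion_trace_mul_raise (G : ModularForm (Gamma0 p) 2) (hF : FrickeCoeff G)
    (Φ : ModularForm 𝒮ℒ k) :
    qExpansion 1 (ModularForm.trace 𝒮ℒ (G.mul (raise p Φ))) =
      qExpansion 1 G * psV p (qExpansion 1 Φ) -
        (p : ℂ) ^ (-k) • psU p (psU p (qExpansion 1 G) * qExpansion 1 Φ) := by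
  have hp0 : (p : ℂ) ≠ 0 := Nat.cast_ne_zero.mpr hp.out.ne_zero
  ext n
  rw [trace_mul_raise_coeff, qExpansion_Hs_of_fricke G hF, map_sub, coeff_smul, coeff_psU,
    smul_mul_assoc, coeff_smul, smul_eq_mul, smul_eq_mul]
  field_simp
  ring

/-! ### (e) `Φ = Δ`: the trace lies in `S₁₄(SL₂ℤ) = 0` -/

/-- A level-one form of weight `k = 14` with vanishing constant term is zero. -/
theorem levelOne_eq_zero_of_sub_twelve_eq_two {k : ℤ} (hk : k - 12 = 2)
    (F : ModularForm 𝒮ℒ k) (h0 : (qExpansion 1 F).coeff 0 = 0) : F = 0 := by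
  have hall : ∀ j : ℤ, j = 2 → ∀ g : ModularForm 𝒮ℒ j, g = 0 := by
    rintro _ rfl g
    exact (rank_zero_iff_forall_zero.mp levelOne_weight_two_rank_zero) g
  have h1 : CuspForm.discriminantEquiv (ModularForm.toCuspForm F h0) = 0 := hall _ hk _
  have h2 : ModularForm.toCuspForm F h0 = 0 := by
    simpa using h1
  ext z
  have := congrArg (fun c : CuspForm 𝒮ℒ k => c z) h2
  simpa [ModularForm.toCuspForm_apply] using this

/-- `Δ` as a level-one modular form of weight 12. -/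
noncomputable def deltaMF : ModularForm 𝒮ℒ 12 := CuspForm.toModularFormₗ CuspForm.discriminant

theorem coe_deltaMF : (deltaMF : ℍ → ℂ) = Δ := rfl

theorem qExpansion_deltaMF : qExpansion 1 deltaMF = qExpansion 1 Δ := rfl

theorem coeff_zero_delta : coeff 0 (qExpansion 1 Δ) = 0 := tau_zero

theorem trace_mul_raise_delta_eq_zero (G : ModularForm (Gamma0 p) 2) (hF : FrickeCoeff G) :
    ModularForm.trace 𝒮ℒ (G.mul (raise p deltaMF)) = 0 := by
  apply levelOne_eq_zero_of_sub_twelve_eq_two (by norm_num)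
  rw [qExpansion_trace_mul_raise G hF, qExpansion_deltaMF, map_sub, coeff_smul, coeff_psU,
    mul_zero, PowerSeries.coeff_mul, PowerSeries.coeff_mul]
  simp [coeff_zero_delta]

/-- **The trace identity** `p¹² g · V_p Δ = U_p((U_p g) · Δ)` from the Fricke relation. -/
theorem traceDeltaAt_of_fricke (G : ModularForm (Gamma0 p) 2) (hF : FrickeCoeff G) :
    TraceDeltaAt p (qExpansion 1 G) := by
  have hp0 : (p : ℂ) ≠ 0 := Nat.cast_ne_zero.mpr hp.out.ne_zero
  have h1 := qExpansion_trace_mul_raise G hF deltaMF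
  rw [trace_mul_raise_delta_eq_zero G hF, qExpansion_deltaMF] at h1
  have h2 : qExpansion 1 ((0 : ModularForm 𝒮ℒ (2 + 12)) : ℍ → ℂ) = 0 := by
    have : ((0 : ModularForm 𝒮ℒ (2 + 12)) : ℍ → ℂ) = 0 := rfl
    rw [this, UpperHalfPlane.qExpansion_zero]
  rw [h2] at h1
  unfold TraceDeltaAt
  have h3 := sub_eq_zero.mp h1.symm
  rw [h3, smul_smul, ← zpow_natCast, ← zpow_add₀ hp0]
  norm_num

theorem traceDeltaStatement_of_fricke (hF : ∀ G : ModularForm (Gamma0 p) 2, FrickeCoeff G) :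
    TraceDeltaStatement p := fun G => traceDeltaAt_of_fricke G (hF G)

end Fermat.Agent.S16.LemmaT99
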