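/-
S16 / (U)-A "Lemma T" (helper99).  Final assembly: `UIface39.U1Stmt`.

`Conj53.bS_weight_two` (helper53: the weight-2 Fricke relation `b_n(G∣S) = -(1/p) a_{pn}(G)`)
+ `LemmaT99.Trace` (trace identity from the Fricke relation) + `LemmaT72Core` (helper72: the
algebra `TraceIds ⇒ l^b ∣ p + 1`)  ⇒  `U1Stmt`.
-/
import Mathlib
import Fermat.Agent.S16.Conj53.WeightTwo
import Fermat.Agent.S16.LemmaT99.Trace

set_option autoImplicit false
set_option linter.unusedSectionVars false
set_option linter.unusedVariables false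

namespace Fermat.Agent.S16.LemmaT99

open UpperHalfPlane ModularForm CongruenceSubgroup PowerSeries ModularGroup
open scoped MatrixGroups ModularForm
open Fermat.Agent.S16.LemmaT72 (tau tau_one tau_zero)

local notation "Δ" => ModularForm.discriminant

variable {p : ℕ} [hp : Fact p.Prime]

/-- helper53's `bS` and helper81's `bco` are the same coefficients. -/
theorem bco_eq_bS {k : ℤ} (f : ModularForm (Gamma0 p) k) (n : ℕ) :
    Fermat.Agent.S16.Conj81.bco f n = Fermat.Agent.S16.Conj53.bS f n := rfl

/-- The weight-2 Fricke relation in coefficient form holds for every `G ∈ M₂(Γ₀(p))`. -/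
theorem frickeCoeff (G : ModularForm (Gamma0 p) 2) : FrickeCoeff G := by
  intro n
  rw [bco_eq_bS, Fermat.Agent.S16.Conj53.bS_weight_two, one_div]

/-- **The trace identity** `p¹² · g · V_p Δ = U_p((U_p g) · Δ)` for every `G ∈ M₂(Γ₀(p))`. -/
theorem traceDeltaAt (G : ModularForm (Gamma0 p) 2) : TraceDeltaAt p (qExpansion 1 G) :=
  traceDeltaAt_of_fricke G (frickeCoeff G)

omit hp in
theorem traceDeltaStatement (hp' : p.Prime) : TraceDeltaStatement p := by
  have : Fact p.Prime := ⟨hp'⟩
  exact fun G => traceDeltaAt G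

omit hp in
/-- helper72's `TraceIds` from the trace identity. -/
theorem traceIds_of_traceDeltaAt (hp' : p.Prime) (g : PowerSeries ℂ) (hT : TraceDeltaAt p g) :
    Fermat.Agent.S16.LemmaT72.TraceIds p (fun n => coeff n g) := by
  classical
  unfold TraceDeltaAt at hT
  have hτ : ∀ n, coeff n (qExpansion 1 Δ) = tau n := fun n => rfl
  constructor
  · -- coefficient of `q^1`
    have h := congrArg (coeff 1) hT
    rw [coeff_psU, mul_one, coeff_mul] at h
    have h' : ∑ x ∈ Finset.HasAntidiagonal.antidiagonal p, coeff (p * x.1) g * tau x.2 =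
        ∑ x ∈ Finset.HasAntidiagonal.antidiagonal p,
          coeff x.1 (psU p g) * coeff x.2 (qExpansion 1 Δ) := by
      refine Finset.sum_congr rfl fun x _ => ?_
      rw [coeff_psU, hτ]
    rw [h', ← h, coeff_smul, coeff_mul]
    have : ∑ x ∈ Finset.HasAntidiagonal.antidiagonal 1,
        coeff x.1 g * coeff x.2 (psV p (qExpansion 1 Δ)) = 0 := by
      apply Finset.sum_eq_zero
      rintro ⟨i, j⟩ hij
      rw [Finset.HasAntidiagonal.mem_antidiagonal] at hij
      simp only at hij
      rw [coeff_psV]
      have hj : j = 0 ∨ j = 1 := by omega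
      rcases hj with rfl | rfl
      · simp [hτ, tau_zero]
      · have : ¬ p ∣ 1 := fun h => hp'.one_lt.ne' (Nat.dvd_one.mp h)
        simp [this]
    rw [this, smul_zero]
  · -- coefficient of `q^p`
    have h := congrArg (coeff p) hT
    rw [coeff_psU, coeff_mul (n := p * p)] at h
    have h' : ∑ x ∈ Finset.HasAntidiagonal.antidiagonal (p ^ 2), coeff (p * x.1) g * tau x.2 =
        ∑ x ∈ Finset.HasAntidiagonal.antidiagonal (p * p),
          coeff x.1 (psU p g) * coeff x.2 (qExpansion 1 Δ) := by
      rw [sq]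
      refine Finset.sum_congr rfl fun x _ => ?_
      rw [coeff_psU, hτ]
    rw [h', ← h, coeff_smul, coeff_mul, smul_eq_mul]
    congr 1
    rw [Finset.sum_eq_single (0, p)]
    · simp [hτ, tau_one, Nat.div_self hp'.pos]
    · rintro ⟨i, j⟩ hij hne
      rw [Finset.HasAntidiagonal.mem_antidiagonal] at hij
      simp only at hij
      rw [coeff_psV]
      by_cases hj : p ∣ j
      · have hjle : j ≤ p := by omega
        rcases Nat.eq_zero_or_pos j with rfl | hjpos
        · simp [hτ, tau_zero]
        · have hjp : j = p := Nat.le_antisymm hjle (Nat.le_of_dvd hjpos hj)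
          subst hjp
          have : i = 0 := by omega
          subst this
          exact absurd rfl hne
      · simp [hj]
    · intro h; exact absurd (by simp) h

omit hp in
/-- helper72's target shape: `TraceIds p (qCoeff G)` for every `G ∈ M₂(Γ₀(p))`. -/
theorem traceIds (hp' : p.Prime) (G : ModularForm (Gamma0 p) 2) :
    Fermat.Agent.S16.LemmaT72.TraceIds p (ModularFormClass.qCoeff (G : ℍ → ℂ)) := by
  have : Fact p.Prime := ⟨hp'⟩
  exact traceIds_of_traceDeltaAt hp' (qExpansion 1 G) (traceDeltaAt G)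

/-- **Lemma T = `UIface39.U1Stmt`**: `G ∈ M₂(Γ₀(p))`, `G ≡ 1 mod l^b` (`l ≠ p`) forces
`l^b ∣ p + 1`. -/
theorem u1Stmt : Fermat.Agent.S16.UIface39.U1Stmt :=
  Fermat.Agent.S16.LemmaT72.u1Stmt_of_traceIds fun p hp' G => traceIds hp' G

end Fermat.Agent.S16.LemmaT99
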