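/-
S16 / (U)-A "Lemma T" (helper99).  Integrality of Ramanujan's `τ` (the `q`-coefficients of
Mathlib's `ModularForm.discriminant`), on top of helper72's `LemmaT72` (part T1: the Hecke relation
`τ(p²) + p¹¹ = τ(p)²`) and helper80's `JBridge80` (`q`-expansion of `Δ` = `q ∏ (1 - qⁿ)²⁴`).
-/
import Mathlib
import Fermat.Agent.S16.LemmaT72
import Fermat.Agent.S24.JBridge80

set_option autoImplicit false

namespace Fermat.Agent.S16.LemmaT99

open UpperHalfPlane ModularForm
open Fermat.Agent.S16.LemmaT72 (tau tau_one tau_zero tau_prime_sq)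

/-- Ramanujan's tau (as an integer): the `n`-th coefficient of `q ∏ (1 - q^m)^24`. -/
noncomputable def tauZ (n : ℕ) : ℤ :=
  PowerSeries.coeff n (PowerSeries.X * ModularCurve.dedekindEtaUnit)

/-- `τ(n)` (helper72's `LemmaT72.tau`) is the integer `tauZ n`. -/
theorem tau_eq_tauZ (n : ℕ) : tau n = (tauZ n : ℂ) := by
  rw [tau, Fermat.Agent.S24.JBridge80.qExpansion_discriminant_eq, tauZ]
  have : (PowerSeries.X : PowerSeries ℂ) * ModularCurve.dedekindEtaUnit.map (Int.castRingHom ℂ)
      = (PowerSeries.X * ModularCurve.dedekindEtaUnit).map (Int.castRingHom ℂ) := by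
    rw [map_mul, PowerSeries.map_X]
  rw [this, PowerSeries.coeff_map]
  rfl

/-- `τ(n)` lies in every subring of `ℂ`. -/
theorem tau_mem (O : Subring ℂ) (n : ℕ) : tau n ∈ O := by
  rw [tau_eq_tauZ]; exact intCast_mem O _

/-- `τ(p²) = τ(p)² - p¹¹` (restatement of `LemmaT72.tau_prime_sq`). -/
theorem tau_sq {p : ℕ} (hp : p.Prime) :
    tau (p * p) = tau p * tau p - (p : ℂ) ^ 11 := by
  have h := tau_prime_sq hp
  rw [sq, sq] at h
  rw [← h]; ring

end Fermat.Agent.S16.LemmaT99
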