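/-
S16 / (U)-A "Lemma T" (helper99).  Part (T2) of the helper72/helper10/helper99 split: the pure
power-series core.  From the trace identity
`p¹² · g(q) Δ(q^p) = U_p [ (U_p g) Δ ]`  (`g` = `q`-expansion of `G ∈ M₂(Γ₀(p))`; this is
`Tr(G · Δ(pz)) ∈ S₁₄(SL₂ℤ) = 0` together with `G|W = -U_p G`) and `G ≡ 1 mod I`
(`I` an additive subgroup of `ℂ` stable under multiplication by a subring `O`), deduce
`τ(p) ∈ I` and `p¹¹ (p + 1) ∈ I`; hence `p + 1 ∈ I` if `p⁻¹ ∈ O`, or if `I = M • O` with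
`(M, p) = 1`.
-/
import Mathlib
import Fermat.Agent.S16.LemmaT99.Tau

set_option autoImplicit false
set_option linter.unusedSectionVars false
set_option linter.unusedVariables false

namespace Fermat.Agent.S16.LemmaT99

open UpperHalfPlane ModularForm CongruenceSubgroup PowerSeries
open scoped MatrixGroups ModularForm
open Fermat.Agent.S16.LemmaT72 (tau tau_one tau_zero)

local notation "Δ" => ModularForm.discriminant

/-- `U_p` on power series: `(U_p f)_n = f_{pn}`. -/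
noncomputable def psU (p : ℕ) (f : PowerSeries ℂ) : PowerSeries ℂ :=
  PowerSeries.mk fun n => coeff (p * n) f

/-- `V_p` on power series: `(V_p f)_{pn} = f_n`, other coefficients zero. -/
noncomputable def psV (p : ℕ) (f : PowerSeries ℂ) : PowerSeries ℂ :=
  PowerSeries.mk fun n => if p ∣ n then coeff (n / p) f else 0

@[simp] theorem coeff_psU (p : ℕ) (f : PowerSeries ℂ) (n : ℕ) :
    coeff n (psU p f) = coeff (p * n) f := by
  rw [psU, coeff_mk]

@[simp] theorem coeff_psV (p : ℕ) (f : PowerSeries ℂ) (n : ℕ) :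
    coeff n (psV p f) = if p ∣ n then coeff (n / p) f else 0 := by
  rw [psV, coeff_mk]

/-- The trace identity `Tr(G · Δ(pz)) = 0` for one form `G`, in `q`-expansion form. -/
def TraceDeltaAt (p : ℕ) (g : PowerSeries ℂ) : Prop :=
  (p : ℂ) ^ 12 • (g * psV p (qExpansion 1 Δ)) = psU p (psU p g * qExpansion 1 Δ)

/-- The trace identity `Tr(G · Δ(pz)) = 0` in `q`-expansion form (to be supplied by CONJ). -/
def TraceDeltaStatement (p : ℕ) : Prop :=
  ∀ G : ModularForm (Gamma0 p) 2,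
    (p : ℂ) ^ 12 • (qExpansion 1 G * psV p (qExpansion 1 Δ)) =
      psU p (psU p (qExpansion 1 G) * qExpansion 1 Δ)

/-- Coefficientwise form of the trace identity: for all `n`,
`p¹² · Σ_{i + p j = n} g_i τ(j) = Σ_{i + j = p n} g_{p i} τ(j)`. -/
theorem traceDeltaAt_iff_coeff (p : ℕ) (g : PowerSeries ℂ) :
    TraceDeltaAt p g ↔ ∀ n, (p : ℂ) ^ 12 * coeff n (g * psV p (qExpansion 1 Δ)) =
      coeff (p * n) (psU p g * qExpansion 1 Δ) := by
  unfold TraceDeltaAt
  rw [PowerSeries.ext_iff]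
  refine forall_congr' fun n => ?_
  rw [coeff_smul, smul_eq_mul, coeff_psU]

/-! ### General shape: an additive subgroup `I ≤ ℂ` stable under a subring `O` -/

section General

variable {O : Subring ℂ} {I : AddSubgroup ℂ}

theorem sum_mem_of {ι : Type*} (s : Finset ι) (f : ι → ℂ) (h : ∀ i ∈ s, f i ∈ I) :
    (∑ i ∈ s, f i) ∈ I := I.sum_mem h

/-- If `u ≡ 1 mod I` coefficientwise, then `coeff n (u * Δ) ≡ τ(n) mod I`. -/
theorem coeff_mul_delta_sub_gen (hI : ∀ x ∈ O, ∀ y ∈ I, x * y ∈ I) (u : PowerSeries ℂ)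
    (h0 : coeff 0 u - 1 ∈ I) (hn : ∀ n, 1 ≤ n → coeff n u ∈ I) (n : ℕ) :
    coeff n (u * qExpansion 1 Δ) - tau n ∈ I := by
  classical
  rw [coeff_mul]
  have h1 : tau n = ∑ x ∈ Finset.HasAntidiagonal.antidiagonal n,
      (if x.1 = 0 then (1 : ℂ) else 0) * tau x.2 := by
    rw [Finset.sum_eq_single (0, n)]
    · simp
    · rintro ⟨i, j⟩ hij hne
      have hi : i ≠ 0 := by
        rintro rfl
        rw [Finset.HasAntidiagonal.mem_antidiagonal] at hij
        simp only [zero_add] at hij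
        exact hne (by rw [hij])
      simp [hi]
    · intro h; exact absurd (by simp) h
  rw [h1, ← Finset.sum_sub_distrib]
  apply I.sum_mem
  rintro ⟨i, j⟩ -
  show coeff i u * tau j - (if i = 0 then (1 : ℂ) else 0) * tau j ∈ I
  rw [← sub_mul, mul_comm]
  apply hI _ (tau_mem O j)
  by_cases hi : i = 0
  · subst hi; simpa using h0
  · simpa [hi] using hn i (Nat.one_le_iff_ne_zero.mpr hi)

/-- **Lemma T**, analytic-free core, general `(O, I)` shape: `τ(p) ∈ I` and `p¹¹(p+1) ∈ I`. -/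
theorem lemmaT_core_gen {p : ℕ} (hp : p.Prime) (g : PowerSeries ℂ) (hT : TraceDeltaAt p g)
    (hI : ∀ x ∈ O, ∀ y ∈ I, x * y ∈ I)
    (h0 : coeff 0 g - 1 ∈ I) (hn : ∀ n, 1 ≤ n → coeff n g ∈ I) :
    tau p ∈ I ∧ (p : ℂ) ^ 11 * ((p : ℂ) + 1) ∈ I := by
  classical
  unfold TraceDeltaAt at hT
  have hτ : ∀ n, coeff n (qExpansion 1 Δ) = tau n := fun n => rfl
  -- coefficients of `u = U_p g`
  have hu0 : coeff 0 (psU p g) - 1 ∈ I := by simpa using h0
  have hun : ∀ n, 1 ≤ n → coeff n (psU p g) ∈ I := by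
    intro n hn1
    rw [coeff_psU]
    exact hn _ (Nat.mul_pos hp.pos hn1)
  have key := coeff_mul_delta_sub_gen hI (psU p g) hu0 hun
  -- coefficient of `q^1`
  have hc1 : coeff p (psU p g * qExpansion 1 Δ) = 0 := by
    have h := congrArg (coeff 1) hT
    rw [coeff_psU, mul_one] at h
    rw [← h, coeff_smul, coeff_mul]
    have : ∑ x ∈ Finset.HasAntidiagonal.antidiagonal 1,
        coeff x.1 g * coeff x.2 (psV p (qExpansion 1 Δ)) = 0 := by
      apply Finset.sum_eq_zero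
      rintro ⟨i, j⟩ hij
      rw [Finset.HasAntidiagonal.mem_antidiagonal] at hij
      simp only at hij
      rw [coeff_psV]
      have hj : j = 0 ∨ j = 1 := by omega
      rcases hj with rfl | rfl
      · simp [hτ, tau_zero]
      · have : ¬ p ∣ 1 := fun h => hp.one_lt.ne' (Nat.dvd_one.mp h)
        simp [this]
    rw [this, smul_zero]
  have hτp : tau p ∈ I := by
    have := key p
    rw [hc1, zero_sub] at this
    simpa using I.neg_mem this
  -- coefficient of `q^p`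
  have hcp : coeff (p * p) (psU p g * qExpansion 1 Δ) = (p : ℂ) ^ 12 * coeff 0 g := by
    have h := congrArg (coeff p) hT
    rw [coeff_psU] at h
    rw [← h, coeff_smul, coeff_mul, smul_eq_mul]
    congr 1
    rw [Finset.sum_eq_single (0, p)]
    · simp [hτ, tau_one, Nat.div_self hp.pos]
    · rintro ⟨i, j⟩ hij hne
      rw [Finset.HasAntidiagonal.mem_antidiagonal] at hij
      simp only at hij
      rw [coeff_psV]
      by_cases hj : p ∣ j
      · have hjle : j ≤ p := by omega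
        rcases Nat.eq_zero_or_pos j with rfl | hjpos
        · simp [hτ, tau_zero]
        · have hjp : j = p := Nat.le_antisymm hjle (Nat.le_of_dvd hjpos hj)
          subst hjp
          have : i = 0 := by omega
          subst this
          exact absurd rfl hne
      · simp [hj]
    · intro h; exact absurd (by simp) h
  refine ⟨hτp, ?_⟩
  have h3 := key (p * p)
  rw [hcp, tau_sq hp] at h3
  -- p^12 * g_0 - (τ_p * τ_p - p^11) ∈ I
  have h4 : (p : ℂ) ^ 12 * (coeff 0 g - 1) ∈ I :=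
    hI _ (O.pow_mem (natCast_mem O p) 12) _ h0
  have h5 : tau p * tau p ∈ I := hI _ (tau_mem O p) _ hτp
  have h6 := I.add_mem (I.sub_mem h3 h4) h5
  have : (p : ℂ) ^ 12 * coeff 0 g - (tau p * tau p - (p : ℂ) ^ 11)
      - (p : ℂ) ^ 12 * (coeff 0 g - 1) + tau p * tau p = (p : ℂ) ^ 11 * ((p : ℂ) + 1) := by ring
  rwa [this] at h6

/-- **Lemma T**, analytic-free core, general `(O, I)` shape with `p⁻¹ ∈ O`:
`τ(p) ∈ I` and `p + 1 ∈ I`. -/
theorem lemmaT_core_inv {p : ℕ} (hp : p.Prime) (g : PowerSeries ℂ) (hT : TraceDeltaAt p g)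
    (hI : ∀ x ∈ O, ∀ y ∈ I, x * y ∈ I) (hpinv : ((p : ℂ))⁻¹ ∈ O)
    (h0 : coeff 0 g - 1 ∈ I) (hn : ∀ n, 1 ≤ n → coeff n g ∈ I) :
    tau p ∈ I ∧ (p : ℂ) + 1 ∈ I := by
  obtain ⟨h1, h2⟩ := lemmaT_core_gen hp g hT hI h0 hn
  refine ⟨h1, ?_⟩
  have hp0 : (p : ℂ) ≠ 0 := Nat.cast_ne_zero.mpr hp.ne_zero
  have h3 := hI _ (O.pow_mem hpinv 11) _ h2
  have : ((p : ℂ))⁻¹ ^ 11 * ((p : ℂ) ^ 11 * ((p : ℂ) + 1)) = (p : ℂ) + 1 := by
    rw [← mul_assoc, ← mul_pow, inv_mul_cancel₀ hp0, one_pow, one_mul]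
  rwa [this] at h3

/-- **Lemma T** for modular forms, general `(O, I)` shape, given the trace identity for `G`. -/
theorem lemmaT_gen {p : ℕ} (hp : p.Prime) (G : ModularForm (Gamma0 p) 2)
    (hT : TraceDeltaAt p (qExpansion 1 G))
    (hI : ∀ x ∈ O, ∀ y ∈ I, x * y ∈ I) (hpinv : ((p : ℂ))⁻¹ ∈ O)
    (h0 : (qExpansion 1 G).coeff 0 - 1 ∈ I)
    (hn : ∀ n, 1 ≤ n → (qExpansion 1 G).coeff n ∈ I) :
    tau p ∈ I ∧ (p : ℂ) + 1 ∈ I :=
  lemmaT_core_inv hp (qExpansion 1 G) hT hI hpinv h0 hn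

end General

/-! ### The "ideal" `M • O` inside `ℂ` -/

/-- `z ∈ M • O`. -/
def InI (O : Subring ℂ) (M : ℕ) (z : ℂ) : Prop := ∃ x ∈ O, z = (M : ℂ) * x

namespace InI

variable {O : Subring ℂ} {M : ℕ}

theorem zero : InI O M 0 := ⟨0, O.zero_mem, by simp⟩

theorem add {z w : ℂ} (hz : InI O M z) (hw : InI O M w) : InI O M (z + w) := by
  obtain ⟨x, hx, rfl⟩ := hz
  obtain ⟨y, hy, rfl⟩ := hw
  exact ⟨x + y, O.add_mem hx hy, by ring⟩

theorem neg {z : ℂ} (hz : InI O M z) : InI O M (-z) := by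
  obtain ⟨x, hx, rfl⟩ := hz
  exact ⟨-x, O.neg_mem hx, by ring⟩

theorem sub {z w : ℂ} (hz : InI O M z) (hw : InI O M w) : InI O M (z - w) := by
  rw [sub_eq_add_neg]; exact hz.add hw.neg

theorem mul_left {z o : ℂ} (ho : o ∈ O) (hz : InI O M z) : InI O M (o * z) := by
  obtain ⟨x, hx, rfl⟩ := hz
  exact ⟨o * x, O.mul_mem ho hx, by ring⟩

theorem mul_right {z o : ℂ} (hz : InI O M z) (ho : o ∈ O) : InI O M (z * o) := by
  rw [mul_comm]; exact hz.mul_left ho

theorem sum {ι : Type*} (s : Finset ι) (f : ι → ℂ) (h : ∀ i ∈ s, InI O M (f i)) :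
    InI O M (∑ i ∈ s, f i) := by
  classical
  induction s using Finset.induction_on with
  | empty => simpa using zero
  | insert a s ha ih =>
    rw [Finset.sum_insert ha]
    exact (h a (Finset.mem_insert_self a s)).add
      (ih fun i hi => h i (Finset.mem_insert_of_mem hi))

theorem mem {z : ℂ} (hz : InI O M z) : z ∈ O := by
  obtain ⟨x, hx, rfl⟩ := hz
  exact O.mul_mem (natCast_mem O M) hx

theorem of_natCast_mul {o : ℂ} (ho : o ∈ O) : InI O M ((M : ℂ) * o) := ⟨o, ho, rfl⟩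

end InI

/-- `M • O` as an additive subgroup of `ℂ`. -/
def mulO (O : Subring ℂ) (M : ℕ) : AddSubgroup ℂ where
  carrier := {z | InI O M z}
  zero_mem' := InI.zero
  add_mem' := InI.add
  neg_mem' := InI.neg

theorem mem_mulO {O : Subring ℂ} {M : ℕ} {z : ℂ} : z ∈ mulO O M ↔ InI O M z := Iff.rfl

theorem mulO_stable (O : Subring ℂ) (M : ℕ) : ∀ x ∈ O, ∀ y ∈ mulO O M, x * y ∈ mulO O M :=
  fun _ hx _ hy => InI.mul_left hx hy

/-- **Lemma T**, analytic-free core, `M • O` shape with `(M, p) = 1` (no `p⁻¹ ∈ O` needed). -/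
theorem lemmaT_core {p : ℕ} (hp : p.Prime) (g : PowerSeries ℂ)
    (hT : (p : ℂ) ^ 12 • (g * psV p (qExpansion 1 Δ)) = psU p (psU p g * qExpansion 1 Δ))
    (O : Subring ℂ) (M : ℕ) (hM : Nat.Coprime M p)
    (h0 : InI O M (coeff 0 g - 1)) (hn : ∀ n, 1 ≤ n → InI O M (coeff n g)) :
    InI O M (tau p) ∧ InI O M ((p : ℂ) + 1) := by
  obtain ⟨hτp, h2⟩ := lemmaT_core_gen (O := O) (I := mulO O M) hp g hT (mulO_stable O M) h0 hn
  refine ⟨hτp, ?_⟩
  rw [mem_mulO] at h2
  -- Bezout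
  have hcop : IsCoprime (M : ℤ) ((p : ℤ) ^ 11) := by
    apply IsCoprime.pow_right
    exact Nat.isCoprime_iff_coprime.mpr hM
  obtain ⟨a, b, hab⟩ := hcop
  have h7 : ((p : ℂ) + 1) = (M : ℂ) * ((a : ℂ) * ((p : ℂ) + 1))
      + (b : ℂ) * ((p : ℂ) ^ 11 * ((p : ℂ) + 1)) := by
    have : ((a * M + b * (p : ℤ) ^ 11 : ℤ) : ℂ) = 1 := by rw [hab]; simp
    push_cast at this
    linear_combination (-(p : ℂ) - 1) * this
  rw [h7]
  apply InI.add
  · apply InI.of_natCast_mul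
    exact O.mul_mem (intCast_mem O a) (O.add_mem (natCast_mem O p) O.one_mem)
  · exact InI.mul_left (intCast_mem O b) h2

/-- **Lemma T** for modular forms, `M • O` shape, given the trace identity. -/
theorem lemmaT {p : ℕ} (hp : p.Prime) (hT : TraceDeltaStatement p)
    (G : ModularForm (Gamma0 p) 2) (O : Subring ℂ) (M : ℕ) (hM : Nat.Coprime M p)
    (h0 : InI O M ((qExpansion 1 G).coeff 0 - 1))
    (hn : ∀ n, 1 ≤ n → InI O M ((qExpansion 1 G).coeff n)) :
    InI O M (tau p) ∧ InI O M ((p : ℂ) + 1) :=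
  lemmaT_core hp (qExpansion 1 G) (hT G) O M hM h0 hn

end Fermat.Agent.S16.LemmaT99
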